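/-
GATE-F / GF-EPOINTS (helper85), file 1.

The affine coordinate ring of an elliptic Weierstrass curve over an algebraically closed field is
a Dedekind domain, and its nonzero primes are exactly the ideals `⟨X - a, Y - b⟩` of the points.

* `XYIdeal_isMaximal`     : `⟨X - a, Y - b⟩` is maximal for `(a, b)` on the curve (any field).
* `isDiscreteValuationRing_atPoint` : the local ring at a nonsingular point is a DVR (any field).
* `exists_eq_XYIdeal`     : (`k` algebraically closed) every nonzero prime is `⟨X - a, Y - b⟩`.
* `instIsDedekindDomainCoordinateRing` : (`k` alg. closed, `W` elliptic) Dedekind.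
* `pointPrime h : HeightOneSpectrum W.CoordinateRing`, injective, surjective.
-/
import Mathlib

set_option autoImplicit false

open Polynomial
open scoped Polynomial.Bivariate

namespace Fermat.Agent.GF.EPoints

open WeierstrassCurve WeierstrassCurve.Affine IsDedekindDomain

variable {k : Type*} [Field k] (W : WeierstrassCurve.Affine k)

instance instModuleFiniteCoordinateRing : Module.Finite k[X] W.CoordinateRing :=
  Module.Finite.of_basis (CoordinateRing.basis W)

/-! ### evaluation characters of the coordinate ring -/

/-- a ring hom out of the coordinate ring which is the identity on constants is evaluation at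
the images of `X` and `Y` -/
theorem char_mk (χ : W.CoordinateRing →+* k)
    (hχ : ∀ c : k, χ (CoordinateRing.mk W (C (C c))) = c) (g : k[X][Y]) :
    χ (CoordinateRing.mk W g) =
      g.evalEval (χ (CoordinateRing.mk W (C X))) (χ (CoordinateRing.mk W Y)) := by
  have h : (χ.comp (CoordinateRing.mk W)) =
      Polynomial.evalEvalRingHom (χ (CoordinateRing.mk W (C X))) (χ (CoordinateRing.mk W Y)) := by
    apply Polynomial.ringHom_ext
    · intro p
      have h2 : (χ.comp (CoordinateRing.mk W)).comp (C : k[X] →+* k[X][Y]) =
          (Polynomial.evalEvalRingHom (χ (CoordinateRing.mk W (C X)))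
            (χ (CoordinateRing.mk W Y))).comp (C : k[X] →+* k[X][Y]) := by
        apply Polynomial.ringHom_ext
        · intro c
          show χ (CoordinateRing.mk W (C (C c))) = evalEval _ _ (C (C c))
          rw [hχ c, evalEval_CC]
        · show χ (CoordinateRing.mk W (C X)) = evalEval _ _ (C X)
          rw [evalEval_C, eval_X]
      exact RingHom.congr_fun h2 p
    · show χ (CoordinateRing.mk W Y) = evalEval _ _ Y
      rw [evalEval_X]
  exact RingHom.congr_fun h g

/-- the point of the curve attached to a character of the coordinate ring -/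
theorem char_equation (χ : W.CoordinateRing →+* k)
    (hχ : ∀ c : k, χ (CoordinateRing.mk W (C (C c))) = c) :
    W.Equation (χ (CoordinateRing.mk W (C X))) (χ (CoordinateRing.mk W Y)) := by
  have h := char_mk W χ hχ W.polynomial
  rw [AdjoinRoot.mk_self, map_zero] at h
  exact h.symm

theorem XYIdeal_le_ker_char (χ : W.CoordinateRing →+* k)
    (hχ : ∀ c : k, χ (CoordinateRing.mk W (C (C c))) = c) :
    CoordinateRing.XYIdeal W (χ (CoordinateRing.mk W (C X))) (C (χ (CoordinateRing.mk W Y))) ≤
      RingHom.ker χ := by
  rw [CoordinateRing.XYIdeal, Ideal.span_le]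
  intro z hz
  rcases hz with rfl | rfl
  · rw [SetLike.mem_coe, RingHom.mem_ker, CoordinateRing.XClass, char_mk W χ hχ]
    simp only [evalEval_C, eval_sub, eval_X, eval_C, sub_self]
  · rw [SetLike.mem_coe, RingHom.mem_ker, CoordinateRing.YClass, char_mk W χ hχ]
    simp only [evalEval_sub, evalEval_X, evalEval_CC, sub_self]

/-! ### the maximal ideal of a point -/

theorem XYIdeal_isMaximal {x y : k} (h : W.Equation x y) :
    (CoordinateRing.XYIdeal W x (C y)).IsMaximal := by
  have h' : (W.polynomial.eval (C y)).eval x = 0 := h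
  apply Ideal.Quotient.maximal_of_isField
  exact MulEquiv.isField (Field.toIsField k)
    (CoordinateRing.quotientXYIdealEquiv (W' := W) h').toRingEquiv.toMulEquiv

theorem XYIdeal_ne_bot (x y : k) : CoordinateRing.XYIdeal W x (C y) ≠ ⊥ := by
  intro h
  have hmem : CoordinateRing.XClass W x ∈ CoordinateRing.XYIdeal W x (C y) :=
    Ideal.subset_span (Set.mem_insert _ _)
  rw [h, Ideal.mem_bot] at hmem
  exact CoordinateRing.XClass_ne_zero x hmem

/-- evaluation at a point of the curve, as a character -/
noncomputable def evalPt {x y : k} (h : W.Equation x y) : W.CoordinateRing →+* k :=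
  AdjoinRoot.evalEval (p := W.polynomial) (x := x) (y := y) h

@[simp] theorem evalPt_mk {x y : k} (h : W.Equation x y) (g : k[X][Y]) :
    evalPt W h (CoordinateRing.mk W g) = g.evalEval x y :=
  AdjoinRoot.evalEval_mk h g

theorem XYIdeal_le_ker_evalPt {x y : k} (h : W.Equation x y) :
    CoordinateRing.XYIdeal W x (C y) ≤ RingHom.ker (evalPt W h) := by
  rw [CoordinateRing.XYIdeal, Ideal.span_le]
  intro z hz
  rcases hz with rfl | rfl
  · rw [SetLike.mem_coe, RingHom.mem_ker, CoordinateRing.XClass, evalPt_mk]
    simp only [evalEval_C, eval_sub, eval_X, eval_C, sub_self]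
  · rw [SetLike.mem_coe, RingHom.mem_ker, CoordinateRing.YClass, evalPt_mk]
    simp only [evalEval_sub, evalEval_X, evalEval_CC, sub_self]

theorem XYIdeal_eq_ker_evalPt {x y : k} (h : W.Equation x y) :
    CoordinateRing.XYIdeal W x (C y) = RingHom.ker (evalPt W h) := by
  refine (XYIdeal_isMaximal W h).eq_of_le ?_ (XYIdeal_le_ker_evalPt W h)
  rw [Ne, Ideal.eq_top_iff_one, RingHom.mem_ker, map_one]
  exact one_ne_zero

theorem mem_XYIdeal_iff {x y : k} (h : W.Equation x y) (g : k[X][Y]) :
    CoordinateRing.mk W g ∈ CoordinateRing.XYIdeal W x (C y) ↔ g.evalEval x y = 0 := by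
  rw [XYIdeal_eq_ker_evalPt W h, RingHom.mem_ker, evalPt_mk]

/-- distinct points have distinct maximal ideals -/
theorem XYIdeal_injective {x y x' y' : k} (h : W.Equation x y)
    (he : CoordinateRing.XYIdeal W x (C y) = CoordinateRing.XYIdeal W x' (C y')) :
    x = x' ∧ y = y' := by
  have h1 : CoordinateRing.XClass W x' ∈ CoordinateRing.XYIdeal W x (C y) := by
    rw [he]; exact Ideal.subset_span (Set.mem_insert _ _)
  have h2 : CoordinateRing.YClass W (C y') ∈ CoordinateRing.XYIdeal W x (C y) := by
    rw [he]; exact Ideal.subset_span (Set.mem_insert_of_mem _ rfl)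
  rw [CoordinateRing.XClass, mem_XYIdeal_iff W h] at h1
  rw [CoordinateRing.YClass, mem_XYIdeal_iff W h] at h2
  simp only [evalEval_C, eval_sub, eval_X, eval_C] at h1
  simp only [evalEval_sub, evalEval_X, evalEval_CC] at h2
  exact ⟨sub_eq_zero.mp h1, sub_eq_zero.mp h2⟩

/-! ### the local ring at a nonsingular point is a DVR -/

/-- an ideal of a local domain which becomes a unit as a fractional ideal is principal
(specialisation of `Ideal.IsPrincipal.of_finite_maximals_of_isUnit`) -/
theorem isPrincipal_of_mul_eq_span_singleton {L : Type*} [CommRing L] [IsDomain L] [IsLocalRing L]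
    (I J : Ideal L) (a : L) (ha : a ≠ 0) (h : I * J = Ideal.span {a}) : I.IsPrincipal := by
  have hfin : {M : Ideal L | M.IsMaximal}.Finite := by
    have : {M : Ideal L | M.IsMaximal} = {IsLocalRing.maximalIdeal L} := by
      ext M
      simp only [Set.mem_ofPred_eq, Set.mem_singleton_iff]
      exact ⟨fun hM => IsLocalRing.eq_maximalIdeal hM,
        fun hM => hM ▸ IsLocalRing.maximalIdeal.isMaximal L⟩
    rw [this]
    exact Set.finite_singleton _
  apply Ideal.IsPrincipal.of_finite_maximals_of_isUnit hfin
  have h1 : ((I : FractionalIdeal (nonZeroDivisors L) (FractionRing L)) * (J : FractionalIdeal _ _))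
      = FractionalIdeal.spanSingleton _ (algebraMap L (FractionRing L) a) := by
    rw [← FractionalIdeal.coeIdeal_mul, h, FractionalIdeal.coeIdeal_span_singleton]
  have ha' : algebraMap L (FractionRing L) a ≠ 0 := by
    rwa [Ne, IsFractionRing.to_map_eq_zero_iff]
  have h2 : IsUnit (FractionalIdeal.spanSingleton (nonZeroDivisors L)
      (algebraMap L (FractionRing L) a)) := by
    refine IsUnit.of_mul_eq_one (FractionalIdeal.spanSingleton _
      (algebraMap L (FractionRing L) a)⁻¹) ?_
    rw [FractionalIdeal.spanSingleton_mul_spanSingleton, mul_inv_cancel₀ ha',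
      FractionalIdeal.spanSingleton_one]
  rw [← h1] at h2
  exact isUnit_of_mul_isUnit_left h2

variable {W} in
/-- **the local ring of the coordinate ring at a nonsingular point is a DVR** -/
theorem isDiscreteValuationRing_atPoint {x y : k} (h : W.Nonsingular x y)
    [hP : (CoordinateRing.XYIdeal W x (C y)).IsPrime] :
    IsDiscreteValuationRing (Localization.AtPrime (CoordinateRing.XYIdeal W x (C y))) := by
  set P := CoordinateRing.XYIdeal W x (C y) with hPdef
  set L := Localization.AtPrime P with hL
  have hnoeth : IsNoetherianRing L := IsLocalization.isNoetherianRing P.primeCompl L inferInstance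
  have hnf : ¬ IsField L := IsLocalization.AtPrime.not_isField W.CoordinateRing
    (XYIdeal_ne_bot W x y) L
  refine ((IsDiscreteValuationRing.TFAE L hnf).out 0 4).mpr ?_
  rw [← Localization.AtPrime.map_eq_maximalIdeal]
  refine isPrincipal_of_mul_eq_span_singleton (Ideal.map (algebraMap W.CoordinateRing L) P)
    (Ideal.map (algebraMap W.CoordinateRing L) (CoordinateRing.XYIdeal W x (C (W.negY x y))))
    (algebraMap W.CoordinateRing L (CoordinateRing.XClass W x)) ?_ ?_
  · rw [Ne, IsLocalization.to_map_eq_zero_iff L P.primeCompl_le_nonZeroDivisors]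
    exact CoordinateRing.XClass_ne_zero x
  · rw [← Ideal.map_mul, mul_comm, CoordinateRing.XYIdeal_neg_mul h, CoordinateRing.XIdeal,
      Ideal.map_span, Set.image_singleton]

/-! ### primes of the coordinate ring over an algebraically closed field -/

/-- a nonzero prime of the coordinate ring is maximal -/
theorem isMaximal_of_isPrime (P : Ideal W.CoordinateRing) [hP : P.IsPrime] (hP0 : P ≠ ⊥) :
    P.IsMaximal := by
  have hint : Algebra.IsIntegral k[X] W.CoordinateRing := Algebra.IsIntegral.of_finite _ _
  obtain ⟨z, hz, hz0⟩ := Submodule.exists_mem_ne_zero_of_ne_bot hP0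
  have hcomap : P.comap (algebraMap k[X] W.CoordinateRing) ≠ ⊥ :=
    Ideal.comap_ne_bot_of_integral_mem hz0 hz (Algebra.IsIntegral.isIntegral z)
  have hmax : (P.comap (algebraMap k[X] W.CoordinateRing)).IsMaximal :=
    Ideal.IsPrime.isMaximal (Ideal.comap_isPrime _ _) hcomap
  exact Ideal.isMaximal_of_isIntegral_of_isMaximal_comap P hmax

/-- the height-one prime of a point of the curve -/
noncomputable def pointPrime {x y : k} (h : W.Equation x y) :
    HeightOneSpectrum W.CoordinateRing where
  asIdeal := CoordinateRing.XYIdeal W x (C y)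
  isPrime := (XYIdeal_isMaximal W h).isPrime
  ne_bot := XYIdeal_ne_bot W x y

@[simp] theorem pointPrime_asIdeal {x y : k} (h : W.Equation x y) :
    (pointPrime W h).asIdeal = CoordinateRing.XYIdeal W x (C y) := rfl

theorem pointPrime_eq_iff {x y x' y' : k} (h : W.Equation x y) (h' : W.Equation x' y') :
    pointPrime W h = pointPrime W h' ↔ x = x' ∧ y = y' := by
  constructor
  · intro he
    exact XYIdeal_injective W h (congrArg HeightOneSpectrum.asIdeal he)
  · rintro ⟨rfl, rfl⟩
    rfl

section AlgClosed

variable [IsAlgClosed k]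

/-- **every nonzero prime of the coordinate ring is the ideal of a point** -/
theorem exists_eq_XYIdeal (P : Ideal W.CoordinateRing) [hP : P.IsPrime] (hP0 : P ≠ ⊥) :
    ∃ x y : k, W.Equation x y ∧ P = CoordinateRing.XYIdeal W x (C y) := by
  have hmax : P.IsMaximal := isMaximal_of_isPrime W P hP0
  let Lf : Field (W.CoordinateRing ⧸ P) := Ideal.Quotient.field P
  have hft1 : Algebra.FiniteType k W.CoordinateRing :=
    Algebra.FiniteType.trans (S := k[X]) inferInstance (Module.Finite.finiteType _)
  have hft : Algebra.FiniteType k (W.CoordinateRing ⧸ P) :=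
    hft1.of_surjective (Ideal.Quotient.mkₐ k P) (Ideal.Quotient.mkₐ_surjective k P)
  have hfin : Module.Finite k (W.CoordinateRing ⧸ P) :=
    finite_of_finite_type_of_isJacobsonRing k (W.CoordinateRing ⧸ P)
  have hint : Algebra.IsIntegral k (W.CoordinateRing ⧸ P) := Algebra.IsIntegral.of_finite _ _
  have hbij : Function.Bijective (algebraMap k (W.CoordinateRing ⧸ P)) :=
    IsAlgClosed.algebraMap_bijective_of_isIntegral
  let e : k ≃+* (W.CoordinateRing ⧸ P) := RingEquiv.ofBijective _ hbij
  let χ : W.CoordinateRing →+* k := (e.symm : (W.CoordinateRing ⧸ P) →+* k).comp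
    (Ideal.Quotient.mk P)
  have hχ : ∀ c : k, χ (CoordinateRing.mk W (C (C c))) = c := by
    intro c
    show e.symm (Ideal.Quotient.mk P (CoordinateRing.mk W (C (C c)))) = c
    rw [RingEquiv.symm_apply_eq]
    rfl
  have hker : RingHom.ker χ = P := by
    ext z
    rw [RingHom.mem_ker]
    show e.symm (Ideal.Quotient.mk P z) = 0 ↔ z ∈ P
    rw [map_eq_zero_iff _ e.symm.injective, Ideal.Quotient.eq_zero_iff_mem]
  refine ⟨χ (CoordinateRing.mk W (C X)), χ (CoordinateRing.mk W Y), char_equation W χ hχ, ?_⟩
  have hle := XYIdeal_le_ker_char W χ hχ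
  rw [hker] at hle
  exact ((XYIdeal_isMaximal W (char_equation W χ hχ)).eq_of_le hmax.ne_top hle).symm

theorem exists_pointPrime_eq (w : HeightOneSpectrum W.CoordinateRing) :
    ∃ (x y : k) (h : W.Equation x y), w = pointPrime W h := by
  have := w.isPrime
  obtain ⟨x, y, h, he⟩ := exists_eq_XYIdeal W w.asIdeal w.ne_bot
  exact ⟨x, y, h, HeightOneSpectrum.ext he⟩

variable [W.IsElliptic]

/-- **the affine coordinate ring of an elliptic curve over an algebraically closed field is a
Dedekind domain** -/
instance instIsDedekindDomainCoordinateRing : IsDedekindDomain W.CoordinateRing := by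
  have : IsDedekindDomainDvr W.CoordinateRing :=
    { is_dvr_at_nonzero_prime := by
        intro P hP0 hP
        obtain ⟨x, y, hxy, rfl⟩ := exists_eq_XYIdeal W P hP0
        exact isDiscreteValuationRing_atPoint (equation_iff_nonsingular.mp hxy) }
  infer_instance

end AlgClosed

end Fermat.Agent.GF.EPoints
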