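/-
GATE-F / GF-EPOINTS (helper85), file 2.

The function field `F` of a Weierstrass curve `W` over a field `k`: ANY field `F` with
`[Algebra W.CoordinateRing F] [IsFractionRing W.CoordinateRing F]` and a compatible `k`-algebra
structure (e.g. Mathlib's `W.FunctionField`).

* `tF W F`, `yF W F : F` the coordinate functions; `equation_gen`, `transcendental_tF`.
* `algebraMap_eq_aeval`: the image of `p • 1 + q • Y` is `p(t) + q(t) y`.
* `isGen_tF : IsGen k (tF W F)` (so `F / k(t)` is finite: S24 / GJ.FF place theory applies).
-/
import Mathlib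
import Fermat.Agent.S24.Gen

set_option autoImplicit false
set_option linter.unusedSectionVars false

open Polynomial
open scoped Polynomial.Bivariate

namespace Fermat.Agent.GF.EPoints

open WeierstrassCurve WeierstrassCurve.Affine IntermediateField

variable {k : Type*} [Field k] (W : WeierstrassCurve.Affine k)
variable (F : Type*) [Field F] [Algebra k F] [Algebra W.CoordinateRing F]
  [IsScalarTower k W.CoordinateRing F] [IsFractionRing W.CoordinateRing F]

/-- the coordinate function `x` -/
noncomputable def tF : F := algebraMap W.CoordinateRing F (CoordinateRing.mk W (C X))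

/-- the coordinate function `y` -/
noncomputable def yF : F := algebraMap W.CoordinateRing F (CoordinateRing.mk W Y)

theorem algebraMap_const (a : k) :
    algebraMap k F a = algebraMap W.CoordinateRing F (CoordinateRing.mk W (C (C a))) := by
  rw [IsScalarTower.algebraMap_apply k W.CoordinateRing F]
  rfl

theorem algebraMap_injective' : Function.Injective (algebraMap W.CoordinateRing F) :=
  IsFractionRing.injective W.CoordinateRing F

/-- the image of a polynomial in `X` is the polynomial in `t` -/
theorem algebraMap_mk_C (p : k[X]) :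
    algebraMap W.CoordinateRing F (CoordinateRing.mk W (C p)) = aeval (tF W F) p := by
  induction p using Polynomial.induction_on with
  | C a => rw [aeval_C, algebraMap_const W F]
  | add p q hp hq => rw [map_add, map_add, map_add, hp, hq, map_add]
  | monomial n a ih =>
    rw [pow_succ, ← mul_assoc, map_mul (C : k[X] →+* k[X][Y]), map_mul (CoordinateRing.mk W),
      map_mul (algebraMap W.CoordinateRing F), ih, map_mul (aeval (tF W F)) _ X, aeval_X]
    rfl

theorem algebraMap_poly (p : k[X]) :
    algebraMap W.CoordinateRing F (algebraMap k[X] W.CoordinateRing p) = aeval (tF W F) p :=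
  algebraMap_mk_C W F p

/-- the image of `p • 1 + q • Y` is `p(t) + q(t) y` -/
theorem algebraMap_smul_basis (p q : k[X]) :
    algebraMap W.CoordinateRing F (p • (1 : W.CoordinateRing) + q • CoordinateRing.mk W Y) =
      aeval (tF W F) p + aeval (tF W F) q * yF W F := by
  rw [map_add, CoordinateRing.smul, CoordinateRing.smul, mul_one, map_mul, algebraMap_mk_C,
    algebraMap_mk_C]
  rfl

theorem transcendental_tF : Transcendental k (tF W F) := by
  rw [transcendental_iff_injective]
  have h : (aeval (tF W F) : k[X] →ₐ[k] F) =
      ((algebraMap W.CoordinateRing F).comp (algebraMap k[X] W.CoordinateRing) : k[X] → F) := by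
    ext p
    exact (algebraMap_poly W F p).symm
  rw [h]
  exact (algebraMap_injective' W F).comp (FaithfulSMul.algebraMap_injective k[X] W.CoordinateRing)

/-- the generic point satisfies the Weierstrass equation, in expanded form -/
theorem equation_gen' :
    yF W F ^ 2 + algebraMap k F W.a₁ * tF W F * yF W F + algebraMap k F W.a₃ * yF W F =
      tF W F ^ 3 + algebraMap k F W.a₂ * tF W F ^ 2 + algebraMap k F W.a₄ * tF W F +
        algebraMap k F W.a₆ := by
  have h0 : CoordinateRing.mk W W.polynomial = 0 := AdjoinRoot.mk_self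
  simp only [WeierstrassCurve.Affine.polynomial, map_add, map_sub, map_mul, map_pow] at h0
  have h1 := congrArg (algebraMap W.CoordinateRing F) h0
  simp only [map_add, map_sub, map_mul, map_pow, map_zero] at h1
  simp only [algebraMap_const W F, tF, yF]
  linear_combination h1

/-- the generic point lies on the base-changed curve -/
theorem equation_gen : (W⁄F).Equation (tF W F) (yF W F) := by
  rw [Affine.equation_iff]
  simp only [baseChange_a₁, baseChange_a₂, baseChange_a₃, baseChange_a₄, baseChange_a₆]
  exact equation_gen' W F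

/-! ### `F` is finite over `k(t)` -/

theorem isIntegral_yF : IsIntegral k⟮tF W F⟯ (yF W F) := by
  set g : k⟮tF W F⟯ := AdjoinSimple.gen k (tF W F) with hg
  set c : k →+* k⟮tF W F⟯ := algebraMap k k⟮tF W F⟯ with hc
  have hgF : algebraMap k⟮tF W F⟯ F g = tF W F := by
    rw [IntermediateField.algebraMap_apply, hg, AdjoinSimple.coe_gen]
  have hcF : ∀ a : k, algebraMap k⟮tF W F⟯ F (c a) = algebraMap k F a := fun a => by
    rw [hc, ← IsScalarTower.algebraMap_apply]
  refine ⟨X ^ 2 + (C (c W.a₁ * g + c W.a₃) * X +
    C (-(g ^ 3 + c W.a₂ * g ^ 2 + c W.a₄ * g + c W.a₆))), ?_, ?_⟩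
  · exact monic_X_pow_add (lt_of_le_of_lt degree_linear_le (by norm_num))
  · simp only [eval₂_add, eval₂_mul, eval₂_pow, eval₂_X, eval₂_C, eval₂_neg, map_add, map_mul, map_pow,
      map_neg, hgF, hcF]
    linear_combination equation_gen' W F

theorem aeval_tF_mem (E : IntermediateField k⟮tF W F⟯ F) (p : k[X]) : aeval (tF W F) p ∈ E := by
  have ht : tF W F ∈ E := by
    have := E.algebraMap_mem (AdjoinSimple.gen k (tF W F))
    rwa [IntermediateField.algebraMap_apply, AdjoinSimple.coe_gen] at this
  have hc : ∀ a : k, algebraMap k F a ∈ E := fun a => by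
    have := E.algebraMap_mem (algebraMap k k⟮tF W F⟯ a)
    rwa [← IsScalarTower.algebraMap_apply] at this
  rw [aeval_eq_sum_range]
  refine sum_mem fun i _ => ?_
  rw [Algebra.smul_def]
  exact mul_mem (hc _) (pow_mem ht _)

theorem algebraMap_mem_adjoin (r : W.CoordinateRing) :
    algebraMap W.CoordinateRing F r ∈ k⟮tF W F⟯⟮yF W F⟯ := by
  obtain ⟨p, q, rfl⟩ := CoordinateRing.exists_smul_basis_eq r
  rw [algebraMap_smul_basis]
  exact add_mem (aeval_tF_mem W F _ p)
    (mul_mem (aeval_tF_mem W F _ q) (mem_adjoin_simple_self _ _))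

theorem adjoin_yF_eq_top : k⟮tF W F⟯⟮yF W F⟯ = ⊤ := by
  rw [eq_top_iff]
  intro f _
  obtain ⟨r, s, -, rfl⟩ := IsFractionRing.div_surjective W.CoordinateRing f
  exact div_mem (algebraMap_mem_adjoin W F r) (algebraMap_mem_adjoin W F s)

instance isGen_tF : Fermat.Agent.S24.IsGen k (tF W F) where
  transcendental := transcendental_tF W F
  finite := by
    have h1 : FiniteDimensional k⟮tF W F⟯ k⟮tF W F⟯⟮yF W F⟯ :=
      adjoin.finiteDimensional (isIntegral_yF W F)
    rw [adjoin_yF_eq_top] at h1
    exact (IntermediateField.topEquiv (F := k⟮tF W F⟯) (E := F)).toLinearEquiv.finiteDimensional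

end Fermat.Agent.GF.EPoints
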