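/-
GATE-F / GF-EPOINTS (helper85), file 3: the place at infinity of a Weierstrass function field.

`k` any field, `W : WeierstrassCurve.Affine k`, `F` a fraction field of `W.CoordinateRing`.

* `ninf W r := natDegree (norm_{k[X]} r)` ("pole order at infinity") on the coordinate ring.
* for ANY valuation subring `A ⊇ k` of `F` with `t ∉ A`: with `γ := v(y / t) > 1`,
  `v(t) = γ ^ 2`, `v(y) = γ ^ 3`, `v(r) = γ ^ ninf r` for `r ≠ 0` in the coordinate ring
  (`valuation_algebraMap`), hence `A` is unique (`eq_of_infty`).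
* `placeInfty W F : Place k F`, `eq_placeInfty` (uniqueness),
  `ord_placeInfty_algebraMap : ord (r) = - ninf r`, `ord_placeInfty_tF = -2`,
  `ord_placeInfty_yF = -3`.
-/
import Mathlib
import Fermat.Agent.GF.EPoints.Field
import Fermat.Agent.GE.FF.PlacesAbs
import Fermat.Agent.GJ.FF.ValRing

set_option autoImplicit false
set_option linter.unusedSectionVars false

open Polynomial
open scoped Polynomial.Bivariate

namespace Fermat.Agent.GF.EPoints

open WeierstrassCurve WeierstrassCurve.Affine AlgebraicCurve
open Fermat.Agent.GE.FF.PlacesAbs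

variable {k : Type*} [Field k] (W : WeierstrassCurve.Affine k)

/-! ### the pole order at infinity on the coordinate ring -/

/-- "pole order at infinity": the degree of the norm to `k[X]` -/
noncomputable def ninf (r : W.CoordinateRing) : ℕ := (Algebra.norm k[X] r).natDegree

theorem ninf_algebraMap (p : k[X]) :
    ninf W (algebraMap k[X] W.CoordinateRing p) = 2 * p.natDegree := by
  rw [ninf, Algebra.norm_algebraMap_of_basis (CoordinateRing.basis W), Fintype.card_fin,
    natDegree_pow]

private theorem withBot_max_aux (a b : ℕ) :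
    max (2 • ((a : ℕ) : WithBot ℕ)) (2 • ((b : ℕ) : WithBot ℕ) + 3) =
      ((max (2 * a) (2 * b + 3) : ℕ) : WithBot ℕ) := by
  have h1 : 2 • ((a : ℕ) : WithBot ℕ) = ((2 * a : ℕ) : WithBot ℕ) := by
    rw [two_nsmul]; push_cast; ring
  have h2 : 2 • ((b : ℕ) : WithBot ℕ) + 3 = ((2 * b + 3 : ℕ) : WithBot ℕ) := by
    rw [two_nsmul]; push_cast; ring
  rw [h1, h2]
  rcases le_total (2 * a) (2 * b + 3) with h | h
  · rw [max_eq_right h, max_eq_right (by exact_mod_cast h)]
  · rw [max_eq_left h, max_eq_left (by exact_mod_cast h)]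

private theorem withBot_bot_aux (b : ℕ) :
    max (2 • (⊥ : WithBot ℕ)) (2 • ((b : ℕ) : WithBot ℕ) + 3) = ((2 * b + 3 : ℕ) : WithBot ℕ) := by
  rw [two_nsmul, two_nsmul, WithBot.bot_add, max_bot_left]
  push_cast; ring

theorem ninf_smul_basis_of_ne {p q : k[X]} (hp : p ≠ 0) (hq : q ≠ 0) :
    ninf W (p • (1 : W.CoordinateRing) + q • CoordinateRing.mk W Y) =
      max (2 * p.natDegree) (2 * q.natDegree + 3) := by
  rw [ninf]
  apply natDegree_eq_of_degree_eq_some
  rw [CoordinateRing.degree_norm_smul_basis, degree_eq_natDegree hp, degree_eq_natDegree hq]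
  exact withBot_max_aux _ _

theorem ninf_smul_basis_of_eq_zero {q : k[X]} (hq : q ≠ 0) :
    ninf W ((0 : k[X]) • (1 : W.CoordinateRing) + q • CoordinateRing.mk W Y) =
      2 * q.natDegree + 3 := by
  rw [ninf]
  apply natDegree_eq_of_degree_eq_some
  rw [CoordinateRing.degree_norm_smul_basis, degree_zero, degree_eq_natDegree hq]
  exact withBot_bot_aux _

theorem ninf_XClass (a : k) : ninf W (CoordinateRing.XClass W a) = 2 := by
  have h : CoordinateRing.XClass W a = algebraMap k[X] W.CoordinateRing (X - C a) := rfl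
  rw [h, ninf_algebraMap, natDegree_X_sub_C]

theorem ninf_YClass {ℓ : k[X]} (hℓ : ℓ.natDegree ≤ 1) : ninf W (CoordinateRing.YClass W ℓ) = 3 := by
  have h : CoordinateRing.YClass W ℓ =
      (-ℓ) • (1 : W.CoordinateRing) + (1 : k[X]) • CoordinateRing.mk W Y := by
    simp only [CoordinateRing.YClass, CoordinateRing.smul, map_one, one_mul, mul_one, map_sub,
      map_neg]
    ring
  rw [h]
  by_cases h0 : ℓ = 0
  · rw [h0, neg_zero, ninf_smul_basis_of_eq_zero W one_ne_zero, natDegree_one]
  · rw [ninf_smul_basis_of_ne W (neg_ne_zero.mpr h0) one_ne_zero, natDegree_one, natDegree_neg]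
    omega

theorem ninf_ne_one (r : W.CoordinateRing) : ninf W r ≠ 1 :=
  CoordinateRing.natDegree_norm_ne_one r

/-! ### valuations at a pole of `t` -/

variable (F : Type*) [Field F] [Algebra k F] [Algebra W.CoordinateRing F]
  [IsScalarTower k W.CoordinateRing F] [IsFractionRing W.CoordinateRing F]

section Val

variable (A : ValuationSubring F)

/-- `γ = v(y / t)`, the valuation of the inverse of the local parameter `t / y` -/
noncomputable def gam : A.ValueGroup := A.valuation (yF W F / tF W F)

variable {A} (hk : ∀ a : k, algebraMap k F a ∈ A) (ht : tF W F ∉ A)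

include hk ht

theorem valuation_tF_pos : 0 < A.valuation (tF W F) :=
  lt_trans zero_lt_one (one_lt_valuation_of_not_mem A ht)

theorem one_lt_gam : 1 < gam W F A := by
  rw [gam, map_div₀, one_lt_div₀ (valuation_tF_pos W F hk ht)]
  exact valuation_t_lt_valuation_y W A hk (equation_gen W F) ht

theorem gam_sq : gam W F A ^ 2 = A.valuation (tF W F) := by
  have h2 := valuation_y_sq_eq W A hk (equation_gen W F) ht
  have hT0 : A.valuation (tF W F) ≠ 0 := (valuation_tF_pos W F hk ht).ne'
  rw [gam, map_div₀, div_pow, h2, div_eq_iff (pow_ne_zero 2 hT0), ← pow_succ']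

theorem gam_cube : gam W F A ^ 3 = A.valuation (yF W F) := by
  have hT0 : A.valuation (tF W F) ≠ 0 := (valuation_tF_pos W F hk ht).ne'
  rw [pow_succ, gam_sq W F hk ht, gam, map_div₀, mul_div_cancel₀ _ hT0]

theorem valuation_aeval_tF {p : k[X]} (hp : p ≠ 0) :
    A.valuation (aeval (tF W F) p) = gam W F A ^ (2 * p.natDegree) := by
  rw [valuation_aeval_infty A hk ht p hp, ← gam_sq W F hk ht, ← pow_mul]

theorem valuation_aeval_tF_mul_yF {q : k[X]} (hq : q ≠ 0) :
    A.valuation (aeval (tF W F) q * yF W F) = gam W F A ^ (2 * q.natDegree + 3) := by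
  rw [map_mul, valuation_aeval_tF W F hk ht hq, ← gam_cube W F hk ht, ← pow_add]

theorem gam_pow_lt_iff {m n : ℕ} : gam W F A ^ m < gam W F A ^ n ↔ m < n :=
  pow_lt_pow_iff_right₀ (one_lt_gam W F hk ht)

/-- **the valuation of an element of the coordinate ring at a pole of `t`** -/
theorem valuation_algebraMap {r : W.CoordinateRing} (hr : r ≠ 0) :
    A.valuation (algebraMap W.CoordinateRing F r) = gam W F A ^ ninf W r := by
  obtain ⟨p, q, rfl⟩ := CoordinateRing.exists_smul_basis_eq r
  rw [algebraMap_smul_basis]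
  by_cases hq : q = 0
  · subst hq
    have hp : p ≠ 0 := by
      rintro rfl
      apply hr
      simp
    have h1 : p • (1 : W.CoordinateRing) + (0 : k[X]) • CoordinateRing.mk W Y =
        algebraMap k[X] W.CoordinateRing p := by
      rw [zero_smul, add_zero, Algebra.smul_def, mul_one]
    rw [h1, ninf_algebraMap, map_zero, zero_mul, add_zero, valuation_aeval_tF W F hk ht hp]
  · by_cases hp : p = 0
    · subst hp
      rw [ninf_smul_basis_of_eq_zero W hq, map_zero, zero_add,
        valuation_aeval_tF_mul_yF W F hk ht hq]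
    · rw [ninf_smul_basis_of_ne W hp hq]
      have h1 := valuation_aeval_tF W F hk ht hp
      have h2 := valuation_aeval_tF_mul_yF W F hk ht hq
      rcases lt_or_gt_of_ne (show 2 * p.natDegree ≠ 2 * q.natDegree + 3 by omega) with h | h
      · rw [max_eq_right h.le, Valuation.map_add_eq_of_lt_right, h2]
        rw [h1, h2]
        exact (gam_pow_lt_iff W F hk ht).mpr h
      · rw [max_eq_left h.le, Valuation.map_add_eq_of_lt_left, h1]
        rw [h1, h2]
        exact (gam_pow_lt_iff W F hk ht).mpr h

/-- membership in a valuation ring at a pole of `t` only depends on the pole orders -/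
theorem div_mem_iff {r s : W.CoordinateRing} (hr : r ≠ 0) (hs : s ≠ 0) :
    algebraMap W.CoordinateRing F r / algebraMap W.CoordinateRing F s ∈ A ↔
      ninf W r ≤ ninf W s := by
  have hs' : A.valuation (algebraMap W.CoordinateRing F s) ≠ 0 := by
    rw [Valuation.ne_zero_iff, Ne, map_eq_zero_iff _ (algebraMap_injective' W F)]
    exact hs
  rw [← A.valuation_le_one_iff, map_div₀, div_le_one₀ (zero_lt_iff.mpr hs'),
    valuation_algebraMap W F hk ht hr, valuation_algebraMap W F hk ht hs]
  exact pow_le_pow_iff_right₀ (one_lt_gam W F hk ht)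

end Val

/-- **uniqueness of the valuation ring at infinity** -/
theorem eq_of_infty {A B : ValuationSubring F} (hkA : ∀ a : k, algebraMap k F a ∈ A)
    (htA : tF W F ∉ A) (hkB : ∀ a : k, algebraMap k F a ∈ B) (htB : tF W F ∉ B) : A = B := by
  ext f
  obtain ⟨r, s, hs, rfl⟩ := IsFractionRing.div_surjective W.CoordinateRing f
  have hs0 : s ≠ 0 := nonZeroDivisors.ne_zero hs
  by_cases hr : r = 0
  · subst hr
    simp
  · rw [div_mem_iff W F hkA htA hr hs0, div_mem_iff W F hkB htB hr hs0]

/-! ### a general dictionary: `Place.ord` from a valuation with values in `γ ^ ℤ` -/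

section OrdDict

open Fermat.Agent.S24

variable {K E : Type*} [Field K] [Field E] [Algebra K E]

theorem ord_eq_zero_of_valuation_eq_one (v : Place K E) {x : E}
    (hx : v.toValuationSubring.valuation x = 1) : v.ord x = 0 := by
  have hx0 : x ≠ 0 := by
    rintro rfl
    rw [map_zero] at hx
    exact zero_ne_one hx
  have m1 : x ∈ v.toValuationSubring := by
    rw [← v.toValuationSubring.valuation_le_one_iff, hx]
  have m2 : x⁻¹ ∈ v.toValuationSubring := by
    rw [← v.toValuationSubring.valuation_le_one_iff, map_inv₀, hx, inv_one]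
  have h1 := (PlaceB.ord_nonneg_iff v hx0).mpr m1
  have h2 := (PlaceB.ord_nonneg_iff v (inv_ne_zero hx0)).mpr m2
  rw [Place.ord_inv] at h2
  omega

/-- if the valuation of `v` takes its values in `γ ^ ℤ` (`γ > 1`) and `γ⁻¹` is attained, then
`ord f = -n` whenever `v(f) = γ ^ n` -/
theorem ord_eq_neg_of_valuation (v : Place K E) (A : ValuationSubring E)
    (hA : v.toValuationSubring = A) (γ : A.ValueGroup)
    (hγ : 1 < γ)
    (hall : ∀ f : E, f ≠ 0 → ∃ n : ℤ, A.valuation f = γ ^ n)
    {s₀ : E} (hs₀ : A.valuation s₀ = γ⁻¹)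
    {f : E} (hf : f ≠ 0) {n : ℤ} (hn : A.valuation f = γ ^ n) :
    v.ord f = -n := by
  subst hA
  have hγ0 : γ ≠ 0 := (lt_trans zero_lt_one hγ).ne'
  have hs₀0 : s₀ ≠ 0 := by
    rintro rfl
    rw [map_zero] at hs₀
    exact inv_ne_zero hγ0 hs₀.symm
  -- an irreducible element and its valuation
  obtain ⟨ϖ, hϖ⟩ := IsDiscreteValuationRing.exists_irreducible v.toValuationSubring
  have hϖ1 : v.ord (ϖ : E) = 1 := v.ord_coe_irreducible hϖ
  have hϖ0 : (ϖ : E) ≠ 0 := by
    intro h
    exact hϖ.ne_zero (Subtype.ext h)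
  obtain ⟨j, hj⟩ := hall (ϖ : E) hϖ0
  -- `x = s₀ ^ (-j) / ϖ` has valuation one
  have hx : v.toValuationSubring.valuation (s₀ ^ (-j) * (ϖ : E)⁻¹) = 1 := by
    rw [map_mul, map_zpow₀, map_inv₀, hs₀, hj, inv_zpow', neg_neg, mul_inv_cancel₀]
    exact zpow_ne_zero _ hγ0
  have hx0 := ord_eq_zero_of_valuation_eq_one v hx
  rw [v.ord_mul (zpow_ne_zero _ hs₀0) (inv_ne_zero hϖ0), v.ord_zpow, v.ord_inv, hϖ1] at hx0
  -- so `(-j) * ord s₀ = 1`
  have hjneg : j < 0 := by
    have hlt : v.toValuationSubring.valuation (ϖ : E) < 1 := by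
      have hnu : (ϖ : E) ∈ v.toValuationSubring.nonunits := by
        rw [ValuationSubring.mem_nonunits_iff_exists_mem_maximalIdeal]
        exact ⟨ϖ.2, by
          rw [IsLocalRing.mem_maximalIdeal, mem_nonunits_iff]
          exact hϖ.not_isUnit⟩
      exact v.toValuationSubring.mem_nonunits_iff.mp hnu
    rw [hj] at hlt
    exact (zpow_lt_one_iff_right₀ hγ).mp hlt
  have hs₀1 : v.ord s₀ = 1 := by
    have h1 : (-j) * v.ord s₀ = 1 := by linarith
    have h2 : 0 < -j := by omega
    rcases Int.eq_one_or_neg_one_of_mul_eq_one' h1 with ⟨_, h⟩ | ⟨h, _⟩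
    · exact h
    · omega
  -- general `f`
  have hy : v.toValuationSubring.valuation (f * s₀ ^ n) = 1 := by
    rw [map_mul, map_zpow₀, hs₀, hn, inv_zpow', ← zpow_add₀ hγ0, add_neg_cancel, zpow_zero]
  have hy0 := ord_eq_zero_of_valuation_eq_one v hy
  rw [v.ord_mul hf (zpow_ne_zero _ hs₀0), v.ord_zpow, hs₀1] at hy0
  linarith

end OrdDict

/-! ### the place at infinity -/

section PlaceInfty

open Fermat.Agent.S24 Fermat.Agent.GJ.FF

theorem exists_infty : ∃ A : ValuationSubring F, (∀ a : k, algebraMap k F a ∈ A) ∧ tF W F ∉ A :=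
  exists_place_infty (tF W F) (transcendental_tF W F)

/-- the valuation ring at infinity -/
noncomputable def inftySubring : ValuationSubring F := (exists_infty W F).choose

theorem algebraMap_mem_inftySubring (a : k) : algebraMap k F a ∈ inftySubring W F :=
  (exists_infty W F).choose_spec.1 a

theorem tF_not_mem_inftySubring : tF W F ∉ inftySubring W F :=
  (exists_infty W F).choose_spec.2

theorem inftySubring_ne_top : inftySubring W F ≠ ⊤ := by
  intro h
  apply tF_not_mem_inftySubring W F
  rw [h]
  exact ValuationSubring.mem_top _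

/-- **the place at infinity** -/
noncomputable def placeInfty : Place k F :=
  placeOf (tF W F) (inftySubring W F) (algebraMap_mem_inftySubring W F) (inftySubring_ne_top W F)

@[simp] theorem placeInfty_toValuationSubring :
    (placeInfty W F).toValuationSubring = inftySubring W F := rfl

theorem tF_not_mem_placeInfty : tF W F ∉ (placeInfty W F).toValuationSubring :=
  tF_not_mem_inftySubring W F

/-- **uniqueness of the place at infinity**: it is the only pole of `t` -/
theorem eq_placeInfty (v : Place k F) (hv : tF W F ∉ v.toValuationSubring) :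
    v = placeInfty W F := by
  apply Place.ext
  exact eq_of_infty W F v.algebraMap_mem' hv (algebraMap_mem_inftySubring W F)
    (tF_not_mem_inftySubring W F)

theorem tF_mem_of_ne_placeInfty {v : Place k F} (hv : v ≠ placeInfty W F) :
    tF W F ∈ v.toValuationSubring := by
  by_contra h
  exact hv (eq_placeInfty W F v h)

/-- **orders at infinity of the elements of the coordinate ring** -/
theorem ord_placeInfty_algebraMap {r : W.CoordinateRing} (hr : r ≠ 0) :
    (placeInfty W F).ord (algebraMap W.CoordinateRing F r) = -(ninf W r : ℤ) := by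
  have hk := algebraMap_mem_inftySubring W F
  have ht := tF_not_mem_inftySubring W F
  have hr' : algebraMap W.CoordinateRing F r ≠ 0 := by
    rwa [Ne, map_eq_zero_iff _ (algebraMap_injective' W F)]
  refine ord_eq_neg_of_valuation (placeInfty W F) (inftySubring W F) rfl
    (gam W F (inftySubring W F)) (one_lt_gam W F hk ht) ?_ (s₀ := tF W F / yF W F) ?_ hr' ?_
  · intro f hf
    obtain ⟨a, s, hs, rfl⟩ := IsFractionRing.div_surjective W.CoordinateRing f
    have hs0 : s ≠ 0 := nonZeroDivisors.ne_zero hs
    have ha0 : a ≠ 0 := by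
      rintro rfl
      simp at hf
    refine ⟨(ninf W a : ℤ) - (ninf W s : ℤ), ?_⟩
    have hγ0 : gam W F (inftySubring W F) ≠ 0 := (lt_trans zero_lt_one (one_lt_gam W F hk ht)).ne'
    rw [map_div₀, valuation_algebraMap W F hk ht ha0, valuation_algebraMap W F hk ht hs0,
      zpow_sub₀ hγ0, zpow_natCast, zpow_natCast]
  · rw [gam, map_div₀, map_div₀, inv_div]
  · rw [valuation_algebraMap W F hk ht hr, zpow_natCast]

theorem ord_placeInfty_tF : (placeInfty W F).ord (tF W F) = -2 := by
  have h := ord_placeInfty_algebraMap W F (CoordinateRing.XClass_ne_zero (W' := W) (0 : k))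
  rw [ninf_XClass] at h
  have h2 : algebraMap W.CoordinateRing F (CoordinateRing.XClass W 0) = tF W F := by
    rw [CoordinateRing.XClass, C_0, sub_zero]
    rfl
  rw [h2] at h
  exact h

theorem ord_placeInfty_yF : (placeInfty W F).ord (yF W F) = -3 := by
  have h := ord_placeInfty_algebraMap W F (CoordinateRing.YClass_ne_zero (W' := W) (0 : k[X]))
  rw [ninf_YClass W (by simp)] at h
  have h2 : algebraMap W.CoordinateRing F (CoordinateRing.YClass W 0) = yF W F := by
    rw [CoordinateRing.YClass, C_0, sub_zero]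
    rfl
  rw [h2] at h
  exact h

end PlaceInfty

end Fermat.Agent.GF.EPoints
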