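/-
GATE-F / GF-EPOINTS (helper85), file 4: all places of an elliptic function field.

`k` algebraically closed, `W` elliptic, `F` a fraction field of `W.CoordinateRing`.

* `placeAt W F h : Place k F` for `h : W.Equation x y` (the `⟨X - x, Y - y⟩`-adic place),
  `ord_placeAt`, `placeAt_eq_iff`, `placeAt_ne_placeInfty`.
* `exists_placeAt_eq` : every place other than `placeInfty` is a `placeAt`.
* `deg_eq_one` : all places have degree one.
* `exists_algebraMap_eq_of_forall_ord_nonneg` : a function regular at all affine places lies in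
  the coordinate ring.
-/
import Mathlib
import Fermat.Agent.GF.EPoints.Dedekind
import Fermat.Agent.GF.EPoints.Infty
import Fermat.Agent.S24_helper6.PlaceDict
import Fermat.Agent.S24.DegOne

set_option autoImplicit false
set_option linter.unusedSectionVars false

open Polynomial
open scoped Polynomial.Bivariate

namespace Fermat.Agent.GF.EPoints

open WeierstrassCurve WeierstrassCurve.Affine AlgebraicCurve IsDedekindDomain
open Fermat.Agent.S24 Fermat.Agent.S24_helper6

variable {k : Type*} [Field k] (W : WeierstrassCurve.Affine k)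
variable (F : Type*) [Field F] [Algebra k F] [Algebra W.CoordinateRing F]
  [IsScalarTower k W.CoordinateRing F] [IsFractionRing W.CoordinateRing F]

/-! ### `y` is integral at every place where `t` is -/

theorem yF_mem_of_tF_mem (A : ValuationSubring F) (hk : ∀ a : k, algebraMap k F a ∈ A)
    (ht : tF W F ∈ A) : yF W F ∈ A := by
  by_contra hy
  have hy1 : 1 < A.valuation (yF W F) := by
    rw [← not_le, A.valuation_le_one_iff]
    exact hy
  have hlin : algebraMap k F W.a₁ * tF W F + algebraMap k F W.a₃ ∈ A :=
    A.add_mem _ _ (A.mul_mem _ _ (hk _) ht) (hk _)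
  have hrhs : tF W F ^ 3 + algebraMap k F W.a₂ * tF W F ^ 2 + algebraMap k F W.a₄ * tF W F +
      algebraMap k F W.a₆ ∈ A :=
    A.add_mem _ _ (A.add_mem _ _ (A.add_mem _ _ (A.pow_mem ht 3)
      (A.mul_mem _ _ (hk _) (A.pow_mem ht 2))) (A.mul_mem _ _ (hk _) ht)) (hk _)
  have heq : yF W F * (yF W F + (algebraMap k F W.a₁ * tF W F + algebraMap k F W.a₃)) =
      tF W F ^ 3 + algebraMap k F W.a₂ * tF W F ^ 2 + algebraMap k F W.a₄ * tF W F +
        algebraMap k F W.a₆ := by
    rw [← equation_gen' W F]
    ring
  have h1 : A.valuation (yF W F + (algebraMap k F W.a₁ * tF W F + algebraMap k F W.a₃)) =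
      A.valuation (yF W F) :=
    Valuation.map_add_eq_of_lt_left _
      (lt_of_le_of_lt ((A.valuation_le_one_iff _).mpr hlin) hy1)
  have h2 : A.valuation (yF W F) * A.valuation (yF W F) ≤ 1 := by
    rw [← A.valuation_le_one_iff, ← heq, map_mul, h1] at hrhs
    exact hrhs
  have h3 : 1 < A.valuation (yF W F) * A.valuation (yF W F) :=
    one_lt_mul_of_lt_of_le' hy1 hy1.le
  exact absurd h2 (not_le.mpr h3)

theorem algebraMap_mem_of_tF_mem (A : ValuationSubring F) (hk : ∀ a : k, algebraMap k F a ∈ A)
    (ht : tF W F ∈ A) (r : W.CoordinateRing) : algebraMap W.CoordinateRing F r ∈ A := by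
  obtain ⟨p, q, rfl⟩ := CoordinateRing.exists_smul_basis_eq r
  rw [algebraMap_smul_basis]
  exact A.add_mem _ _ (Fermat.Agent.GJ.FF.aeval_mem A hk ht p)
    (A.mul_mem _ _ (Fermat.Agent.GJ.FF.aeval_mem A hk ht q) (yF_mem_of_tF_mem W F A hk ht))

variable [IsAlgClosed k] [W.IsElliptic]

/-! ### affine places -/

/-- **the place at an affine point** -/
noncomputable def placeAt {x y : k} (h : W.Equation x y) : Place k F :=
  placeOfPrime (K := k) (F := F) (pointPrime W h)

theorem ord_placeAt {x y : k} (h : W.Equation x y) (f : F) :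
    (placeAt W F h).ord f = -(WithZero.log ((pointPrime W h).valuation F f)) :=
  placeOfPrime_ord _ f

theorem mem_placeAt_iff {x y : k} (h : W.Equation x y) (f : F) :
    f ∈ (placeAt W F h).toValuationSubring ↔ (pointPrime W h).valuation F f ≤ 1 := Iff.rfl

theorem algebraMap_mem_placeAt {x y : k} (h : W.Equation x y) (r : W.CoordinateRing) :
    algebraMap W.CoordinateRing F r ∈ (placeAt W F h).toValuationSubring :=
  algebraMap_mem_placeOfPrime _ r

theorem tF_mem_placeAt {x y : k} (h : W.Equation x y) :
    tF W F ∈ (placeAt W F h).toValuationSubring :=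
  algebraMap_mem_placeAt W F h _

theorem placeAt_ne_placeInfty {x y : k} (h : W.Equation x y) :
    placeAt W F h ≠ placeInfty W F := by
  intro he
  apply tF_not_mem_placeInfty W F
  rw [← he]
  exact tF_mem_placeAt W F h

theorem placeAt_eq_iff {x y x' y' : k} (h : W.Equation x y) (h' : W.Equation x' y') :
    placeAt W F h = placeAt W F h' ↔ x = x' ∧ y = y' := by
  rw [← pointPrime_eq_iff W h h']
  constructor
  · intro he
    have h1 := primeOfPlace_placeOfPrime (K := k) (F := F) (pointPrime W h)
    have h2 := primeOfPlace_placeOfPrime (K := k) (F := F) (pointPrime W h')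
    rw [← h1, ← h2]
    congr 1
  · intro he
    rw [placeAt, placeAt, he]

/-- **every place other than infinity is the place of a point** -/
theorem exists_placeAt_eq (v : Place k F) (hv : v ≠ placeInfty W F) :
    ∃ (x y : k) (h : W.Equation x y), v = placeAt W F h := by
  have ht := tF_mem_of_ne_placeInfty W F hv
  have hB : ContainsB W.CoordinateRing v :=
    fun r => algebraMap_mem_of_tF_mem W F v.toValuationSubring v.algebraMap_mem' ht r
  obtain ⟨x, y, h, he⟩ := exists_pointPrime_eq W (primeOfPlace v hB)
  refine ⟨x, y, h, ?_⟩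
  rw [placeAt, ← he]
  exact (placeOfPrime_primeOfPlace v hB).symm

theorem eq_placeInfty_or_exists_placeAt (v : Place k F) :
    v = placeInfty W F ∨ ∃ (x y : k) (h : W.Equation x y), v = placeAt W F h := by
  by_cases hv : v = placeInfty W F
  · exact Or.inl hv
  · exact Or.inr (exists_placeAt_eq W F v hv)

include W in
/-- all places have degree one -/
theorem deg_eq_one (v : Place k F) : v.deg = 1 :=
  PlaceB.deg_eq_one v (tF W F)

/-- a function regular at all affine places lies in the coordinate ring -/
theorem exists_algebraMap_eq_of_forall_ord_nonneg (f : F)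
    (hf : ∀ (x y : k) (h : W.Equation x y), 0 ≤ (placeAt W F h).ord f) :
    ∃ r : W.CoordinateRing, algebraMap W.CoordinateRing F r = f := by
  rcases eq_or_ne f 0 with rfl | hf0
  · exact ⟨0, map_zero _⟩
  apply HeightOneSpectrum.mem_integers_of_valuation_le_one F f
  intro w
  obtain ⟨x, y, h, rfl⟩ := exists_pointPrime_eq W w
  exact (mem_placeAt_iff W F h f).mp ((PlaceB.ord_nonneg_iff _ hf0).mp (hf x y h))

end Fermat.Agent.GF.EPoints
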