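/-
GATE-F / GF-EPOINTS (helper85), file 6: **`E(k) ≃+ Pic⁰(k(E))`**.

`k` algebraically closed, `W` elliptic, `F` a fraction field of `W.CoordinateRing`
(e.g. `W.FunctionField`).

* `pointDivisor W F P : Divisor k F` : `(P) - (∞)` (`0` for the point at infinity).
* `pointHom W F : W.Point →+ Pic0 k F`, `P ↦ [(P) - (∞)]`.
* `pointEquiv W F : W.Point ≃+ Pic0 k F` (no Riemann–Roch input: injectivity is
  `natDegree_norm_ne_one`, surjectivity is additivity).
* `pointEquiv_mem_torsion_iff`.
-/
import Mathlib
import Fermat.Agent.GF.EPoints.Divisors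

set_option autoImplicit false
set_option linter.unusedSectionVars false

open Polynomial
open scoped Polynomial.Bivariate

namespace Fermat.Agent.GF.EPoints

open WeierstrassCurve WeierstrassCurve.Affine AlgebraicCurve IsDedekindDomain

/-- two degree-zero divisors differing by a principal divisor have the same class -/
theorem mk_eq_mk_of_ord {K E : Type*} [Field K] [Field E] [Algebra K E]
    {D D' : Divisor.degZero (K := K) (F := E)} (f : E) (hf : f ≠ 0)
    (h : ∀ v : Place K E, ((D : Divisor K E) - (D' : Divisor K E)) v = v.ord f) :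
    Pic0.mk D = Pic0.mk D' := by
  symm
  apply QuotientAddGroup.eq.mpr
  rw [AddSubgroup.mem_addSubgroupOf]
  have : (((-D' + D : Divisor.degZero (K := K) (F := E)) : Divisor K E)) =
      (D : Divisor K E) - (D' : Divisor K E) := by
    push_cast
    abel
  rw [this]
  exact ⟨f, hf, h⟩

variable {k : Type*} [Field k] [IsAlgClosed k] [DecidableEq k]
  (W : WeierstrassCurve.Affine k) [W.IsElliptic]
variable (F : Type*) [Field F] [Algebra k F] [Algebra W.CoordinateRing F]
  [IsScalarTower k W.CoordinateRing F] [IsFractionRing W.CoordinateRing F]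

/-- the divisor `(P) - (∞)` of a point -/
noncomputable def pointDivisor : W.Point → Divisor k F
  | .zero => 0
  | .some _ _ h => Finsupp.single (placeAt W F h.1) (1 : ℤ) - Finsupp.single (placeInfty W F) 1

@[simp] theorem pointDivisor_zero : pointDivisor W F (0 : W.Point) = 0 := rfl

@[simp] theorem pointDivisor_some {x y : k} (h : W.Nonsingular x y) :
    pointDivisor W F (.some x y h) =
      Finsupp.single (placeAt W F h.1) (1 : ℤ) - Finsupp.single (placeInfty W F) 1 := rfl

include W in
theorem degree_single_one (v : Place k F) :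
    Divisor.degree (Finsupp.single v (1 : ℤ)) = 1 := by
  rw [Divisor.degree_single, deg_eq_one W F v]
  norm_num

theorem pointDivisor_mem_degZero (P : W.Point) :
    pointDivisor W F P ∈ Divisor.degZero (K := k) (F := F) := by
  rw [Divisor.mem_degZero]
  rcases P with _ | ⟨x, y, h⟩
  · exact map_zero _
  · rw [pointDivisor_some, map_sub, degree_single_one W F, degree_single_one W F, sub_self]

/-- the class `[(P) - (∞)]` -/
noncomputable def pointClass (P : W.Point) : Pic0 k F :=
  Pic0.mk ⟨pointDivisor W F P, pointDivisor_mem_degZero W F P⟩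

theorem pointClass_zero : pointClass W F (0 : W.Point) = 0 := rfl

/-- **additivity of `P ↦ [(P) - (∞)]`** -/
theorem pointClass_add (P Q : W.Point) :
    pointClass W F (P + Q) = pointClass W F P + pointClass W F Q := by
  rcases P with _ | ⟨x₁, y₁, h₁⟩
  · rw [← Point.zero_def, zero_add, pointClass_zero, zero_add]
  rcases Q with _ | ⟨x₂, y₂, h₂⟩
  · rw [← Point.zero_def, add_zero, pointClass_zero, add_zero]
  by_cases hxy : x₁ = x₂ ∧ y₁ = W.negY x₂ y₂
  · obtain ⟨rfl, rfl⟩ := hxy
    rw [Point.add_of_Y_eq rfl rfl, pointClass_zero]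
    symm
    have hX0 : algebraMap W.CoordinateRing F (CoordinateRing.XClass W x₁) ≠ 0 := by
      rw [Ne, map_eq_zero_iff _ (algebraMap_injective' W F)]
      exact CoordinateRing.XClass_ne_zero x₁
    refine mk_eq_mk_of_ord (K := k) (D := ⟨_, _⟩ + ⟨_, _⟩) (D' := 0) _ hX0 ?_
    intro v
    rw [← divisor_XClass W F h₂ h₁.1 v]
    congr 1
    simp only [AddSubgroup.coe_add, ZeroMemClass.coe_zero, sub_zero, pointDivisor_some, two_smul]
    abel
  · rw [Point.add_some hxy]
    have hY0 : algebraMap W.CoordinateRing F
        (CoordinateRing.YClass W (linePolynomial x₁ y₁ (W.slope x₁ x₂ y₁ y₂))) ≠ 0 := by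
      rw [Ne, map_eq_zero_iff _ (algebraMap_injective' W F)]
      exact CoordinateRing.YClass_ne_zero _
    have hX0 : algebraMap W.CoordinateRing F
        (CoordinateRing.XClass W (W.addX x₁ x₂ (W.slope x₁ x₂ y₁ y₂))) ≠ 0 := by
      rw [Ne, map_eq_zero_iff _ (algebraMap_injective' W F)]
      exact CoordinateRing.XClass_ne_zero _
    symm
    refine mk_eq_mk_of_ord (K := k) (D := ⟨_, _⟩ + ⟨_, _⟩) (D' := ⟨_, _⟩) _ (div_ne_zero hY0 hX0) ?_
    intro v
    rw [← divisor_line W F h₁.1 h₂.1 hxy (nonsingular_add h₁ h₂ hxy).1 v]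
    congr 1
    simp only [AddSubgroup.coe_add, pointDivisor_some]
    abel

/-- **the homomorphism `E(k) → Pic⁰(k(E))`, `P ↦ [(P) - (∞)]`** -/
noncomputable def pointHom : W.Point →+ Pic0 k F :=
  AddMonoidHom.mk' (pointClass W F) (pointClass_add W F)

@[simp] theorem pointHom_apply (P : W.Point) : pointHom W F P = pointClass W F P := rfl

theorem pointHom_some {x y : k} (h : W.Nonsingular x y) :
    pointHom W F (.some x y h) =
      Pic0.mk ⟨Finsupp.single (placeAt W F h.1) (1 : ℤ) - Finsupp.single (placeInfty W F) 1,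
        pointDivisor_mem_degZero W F (.some x y h)⟩ := rfl

/-! ### injectivity -/

theorem pointHom_injective : Function.Injective (pointHom W F) := by
  rw [injective_iff_map_eq_zero]
  intro P hP
  rcases P with _ | ⟨x, y, h⟩
  · rfl
  exfalso
  rw [pointHom_apply, pointClass, Pic0.mk, QuotientAddGroup.eq_zero_iff,
    AddSubgroup.mem_addSubgroupOf] at hP
  obtain ⟨f, hf0, hf⟩ := hP
  simp only [pointDivisor_some] at hf
  -- `f` is regular at all affine places
  have hreg : ∀ (x' y' : k) (h' : W.Equation x' y'), 0 ≤ (placeAt W F h').ord f := by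
    intro x' y' h'
    rw [← hf, Finsupp.sub_apply, single_placeInfty_placeAt, sub_zero]
    classical
    rw [Finsupp.single_apply]
    split_ifs <;> norm_num
  obtain ⟨r, rfl⟩ := exists_algebraMap_eq_of_forall_ord_nonneg W F f hreg
  have hr : r ≠ 0 := by
    rintro rfl
    exact hf0 (map_zero _)
  have hinf := hf (placeInfty W F)
  rw [Finsupp.sub_apply, single_placeAt_placeInfty, Finsupp.single_eq_same,
    ord_placeInfty_algebraMap W F hr] at hinf
  have : ninf W r = 1 := by omega
  exact ninf_ne_one W r this

/-! ### surjectivity -/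

open Classical in
/-- the point of a place -/
noncomputable def pointOfPlace (v : Place k F) : W.Point :=
  if hv : v = placeInfty W F then 0
  else .some _ _ (equation_iff_nonsingular.mp
    (exists_placeAt_eq W F v hv).choose_spec.choose_spec.choose)

theorem pointDivisor_pointOfPlace (v : Place k F) :
    pointDivisor W F (pointOfPlace W F v) =
      Finsupp.single v (1 : ℤ) - Finsupp.single (placeInfty W F) 1 := by
  unfold pointOfPlace
  split_ifs with hv
  · rw [hv, sub_self, pointDivisor_zero]
  · rw [pointDivisor_some]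
    congr 2
    exact ((exists_placeAt_eq W F v hv).choose_spec.choose_spec.choose_spec).symm

/-- `D ↦ D - deg D • (∞)`, as a homomorphism to degree-zero divisors -/
noncomputable def toDegZero : Divisor k F →+ Divisor.degZero (K := k) (F := F) :=
  (AddMonoidHom.id (Divisor k F) -
    ((zmultiplesHom (Divisor k F)) (Finsupp.single (placeInfty W F) (1 : ℤ))).comp
      Divisor.degree).codRestrict _ (fun D => by
    rw [Divisor.mem_degZero]
    simp only [AddMonoidHom.sub_apply, AddMonoidHom.id_apply, AddMonoidHom.coe_comp,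
      Function.comp_apply, zmultiplesHom_apply, map_sub, map_zsmul, degree_single_one W F,
      smul_eq_mul, mul_one, sub_self])

theorem coe_toDegZero (D : Divisor k F) :
    ((toDegZero W F D : Divisor.degZero (K := k) (F := F)) : Divisor k F) =
      D - Divisor.degree D • Finsupp.single (placeInfty W F) (1 : ℤ) := rfl

theorem toDegZero_of_mem (D : Divisor.degZero (K := k) (F := F)) :
    toDegZero W F (D : Divisor k F) = D := by
  apply Subtype.ext
  rw [coe_toDegZero, Divisor.mem_degZero.mp D.2, zero_smul, sub_zero]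

theorem pointHom_surjective : Function.Surjective (pointHom W F) := by
  intro c
  obtain ⟨D, rfl⟩ := Pic0.mk_surjective c
  -- two homomorphisms on all divisors
  let Ψ : Divisor k F →+ Pic0 k F := (pointHom W F).comp
    (Finsupp.liftAddHom fun v => (zmultiplesHom W.Point) (pointOfPlace W F v))
  let Φ : Divisor k F →+ Pic0 k F :=
    (QuotientAddGroup.mk' _).comp (toDegZero W F)
  have hΨΦ : Ψ = Φ := by
    apply Finsupp.addHom_ext
    intro v n
    have h1 : Ψ (Finsupp.single v n) = n • pointClass W F (pointOfPlace W F v) := by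
      simp only [Ψ, AddMonoidHom.coe_comp, Function.comp_apply, Finsupp.liftAddHom_apply_single,
        zmultiplesHom_apply, map_zsmul, pointHom_apply]
    have h2 : toDegZero W F (Finsupp.single v n) =
        n • (⟨pointDivisor W F (pointOfPlace W F v), pointDivisor_mem_degZero W F _⟩ :
          Divisor.degZero (K := k) (F := F)) := by
      apply Subtype.ext
      rw [coe_toDegZero, AddSubgroup.coe_zsmul]
      show _ = n • pointDivisor W F (pointOfPlace W F v)
      rw [pointDivisor_pointOfPlace, Divisor.degree_single, deg_eq_one W F v, Nat.cast_one,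
        mul_one, smul_sub, Finsupp.smul_single_one, Finsupp.smul_single_one]
    rw [h1]
    show _ = QuotientAddGroup.mk' _ (toDegZero W F (Finsupp.single v n))
    rw [h2, map_zsmul]
    rfl
  refine ⟨Finsupp.liftAddHom (fun v => (zmultiplesHom W.Point) (pointOfPlace W F v))
    (D : Divisor k F), ?_⟩
  have h3 : Ψ (D : Divisor k F) = Φ (D : Divisor k F) := by rw [hΨΦ]
  have h4 : Φ (D : Divisor k F) = Pic0.mk D := by
    show QuotientAddGroup.mk' _ (toDegZero W F (D : Divisor k F)) = _
    rw [toDegZero_of_mem]
    rfl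
  rw [← h4, ← h3]
  rfl

/-- **`E(k) ≃+ Pic⁰(k(E))`, `P ↦ [(P) - (∞)]`** -/
noncomputable def pointEquiv : W.Point ≃+ Pic0 k F :=
  AddEquiv.ofBijective (pointHom W F) ⟨pointHom_injective W F, pointHom_surjective W F⟩

@[simp] theorem pointEquiv_apply (P : W.Point) : pointEquiv W F P = pointClass W F P := rfl

theorem pointEquiv_some {x y : k} (h : W.Nonsingular x y) :
    pointEquiv W F (.some x y h) =
      Pic0.mk ⟨Finsupp.single (placeAt W F h.1) (1 : ℤ) - Finsupp.single (placeInfty W F) 1,
        pointDivisor_mem_degZero W F (.some x y h)⟩ := rfl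

theorem pointEquiv_mem_torsion_iff (n : ℕ) (P : W.Point) :
    pointEquiv W F P ∈ Pic0.torsion k F n ↔ (n : ℤ) • P = 0 := by
  rw [Pic0.mem_torsion, ← map_zsmul, map_eq_zero_iff _ (pointEquiv W F).injective]

end Fermat.Agent.GF.EPoints
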