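/-
GATE-F / GF-EPOINTS (helper85), file 7: Galois equivariance of `E(k) ≃+ Pic⁰(k(E))`.

`g : AlgebraicCurve.SemilinearAut k F` a semilinear automorphism of the function field fixing the
coordinate functions `t`, `y` (so it acts on the coefficients only), `σ = baseAut g`.

* `smul_placeInfty`, `smul_placeAt` : `g • (∞) = (∞)`, `g • (x, y) = (σ x, σ y)`.
* `smul_pointClass_some` : `g • [(P) - (∞)] = [(σ P) - (∞)]`.
* `pointEquiv_galois_smul` : in the frozen shape of `Def_FLTPrelim_GaloisRep`
  (`W = W'⁄k`, `σ : k ≃ₐ[S] k` acting by `Point.map`): `pointEquiv (σ • P) = g • pointEquiv P`.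
-/
import Mathlib
import Fermat.Agent.GF.EPoints.Main
import Fermat.Prelude.Def_AlgebraicCurve_BaseChangeGalois
import Fermat.Prelude.Def_FLTPrelim_GaloisRep

set_option autoImplicit false
set_option linter.unusedSectionVars false

open Polynomial
open scoped Polynomial.Bivariate Pointwise

namespace Fermat.Agent.GF.EPoints

open WeierstrassCurve WeierstrassCurve.Affine AlgebraicCurve IsDedekindDomain

section General

variable {k : Type*} [Field k] {F : Type*} [Field F] [Algebra k F]

/-- a semilinear automorphism maps nonunits of `A` to nonunits of `g • A` -/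
theorem smul_mem_nonunits (g : SemilinearAut k F) {A : ValuationSubring F} {x : F}
    (hx : x ∈ A.nonunits) : g • x ∈ (g • A).nonunits := by
  rw [ValuationSubring.mem_nonunits_iff_or] at hx ⊢
  rcases hx with rfl | hx
  · left
    exact smul_zero g
  · right
    intro h
    apply hx
    rw [ValuationSubring.mem_pointwise_smul_iff_inv_smul_mem] at h
    have h2 : g⁻¹ • (g • x)⁻¹ = x⁻¹ := by
      rw [← smul_inv'' , inv_smul_smul]
    rwa [h2] at h

end General

variable {k : Type*} [Field k] [IsAlgClosed k] (W : WeierstrassCurve.Affine k) [W.IsElliptic]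
variable (F : Type*) [Field F] [Algebra k F] [Algebra W.CoordinateRing F]
  [IsScalarTower k W.CoordinateRing F] [IsFractionRing W.CoordinateRing F]

/-! ### the centre of an affine place -/

theorem algebraMap_XClass (x : k) :
    algebraMap W.CoordinateRing F (CoordinateRing.XClass W x) = tF W F - algebraMap k F x := by
  rw [CoordinateRing.XClass, algebraMap_mk_C, map_sub, aeval_X, aeval_C]

theorem algebraMap_YClass_C (y : k) :
    algebraMap W.CoordinateRing F (CoordinateRing.YClass W (C y)) =
      yF W F - algebraMap k F y := by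
  rw [CoordinateRing.YClass, map_sub, map_sub, algebraMap_const W F y]
  rfl

theorem mem_nonunits_placeAt_iff {x y : k} (h : W.Equation x y) (r : W.CoordinateRing) :
    algebraMap W.CoordinateRing F r ∈ (placeAt W F h).toValuationSubring.nonunits ↔
      r ∈ CoordinateRing.XYIdeal W x (C y) := by
  rw [ValuationSubring.mem_nonunits_iff]
  show ((pointPrime W h).valuation F).valuationSubring.valuation _ < 1 ↔ _
  rw [← (Valuation.isEquiv_valuation_valuationSubring
    ((pointPrime W h).valuation F)).lt_one_iff_lt_one,
    HeightOneSpectrum.valuation_lt_one_iff_mem]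
  rfl

theorem tF_sub_mem_nonunits_placeAt {x y : k} (h : W.Equation x y) :
    tF W F - algebraMap k F x ∈ (placeAt W F h).toValuationSubring.nonunits := by
  rw [← algebraMap_XClass, mem_nonunits_placeAt_iff]
  exact Ideal.subset_span (Set.mem_insert _ _)

theorem yF_sub_mem_nonunits_placeAt {x y : k} (h : W.Equation x y) :
    yF W F - algebraMap k F y ∈ (placeAt W F h).toValuationSubring.nonunits := by
  rw [← algebraMap_YClass_C, mem_nonunits_placeAt_iff]
  exact Ideal.subset_span (Set.mem_insert_of_mem _ rfl)

/-- a constant which is a nonunit at some place vanishes -/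
theorem eq_zero_of_algebraMap_mem_nonunits (v : Place k F) {a : k}
    (ha : algebraMap k F a ∈ v.toValuationSubring.nonunits) : a = 0 := by
  by_contra h0
  rw [ValuationSubring.mem_nonunits_iff_or] at ha
  rcases ha with ha | ha
  · exact h0 ((map_eq_zero_iff _ (algebraMap k F).injective).mp ha)
  · apply ha
    rw [← map_inv₀]
    exact v.algebraMap_mem' _

/-- **a place is determined by its centre** -/
theorem eq_placeAt_of_mem_nonunits (v : Place k F) {x y : k} (h : W.Equation x y)
    (ht : tF W F - algebraMap k F x ∈ v.toValuationSubring.nonunits)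
    (hy : yF W F - algebraMap k F y ∈ v.toValuationSubring.nonunits) :
    v = placeAt W F h := by
  have htm : tF W F ∈ v.toValuationSubring := by
    have h1 := v.toValuationSubring.add_mem _ _ (v.toValuationSubring.nonunits_subset ht)
      (v.algebraMap_mem' x)
    rwa [sub_add_cancel] at h1
  have hv : v ≠ placeInfty W F := by
    rintro rfl
    exact tF_not_mem_placeInfty W F htm
  obtain ⟨x', y', h', rfl⟩ := exists_placeAt_eq W F v hv
  have hx : x = x' := by
    have h1 := tF_sub_mem_nonunits_placeAt W F h'
    have h2 : algebraMap k F (x - x') ∈ (placeAt W F h').toValuationSubring.nonunits := by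
      have h3 : algebraMap k F (x - x') =
          (tF W F - algebraMap k F x') - (tF W F - algebraMap k F x) := by
        rw [map_sub]; ring
      rw [h3, ValuationSubring.mem_nonunits_iff_exists_mem_maximalIdeal] at *
      obtain ⟨m1, hm1⟩ := h1
      obtain ⟨m2, hm2⟩ := ht
      exact ⟨_, Ideal.sub_mem _ hm1 hm2⟩
    exact sub_eq_zero.mp (eq_zero_of_algebraMap_mem_nonunits F _ h2)
  have hyy : y = y' := by
    have h1 := yF_sub_mem_nonunits_placeAt W F h'
    have h2 : algebraMap k F (y - y') ∈ (placeAt W F h').toValuationSubring.nonunits := by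
      have h3 : algebraMap k F (y - y') =
          (yF W F - algebraMap k F y') - (yF W F - algebraMap k F y) := by
        rw [map_sub]; ring
      rw [h3, ValuationSubring.mem_nonunits_iff_exists_mem_maximalIdeal] at *
      obtain ⟨m1, hm1⟩ := h1
      obtain ⟨m2, hm2⟩ := hy
      exact ⟨_, Ideal.sub_mem _ hm1 hm2⟩
    exact sub_eq_zero.mp (eq_zero_of_algebraMap_mem_nonunits F _ h2)
  subst hx hyy
  rfl

/-! ### the action on places -/

variable {F} (g : SemilinearAut k F)

theorem smul_placeInfty (ht : g • tF W F = tF W F) :
    g • placeInfty W F = placeInfty W F := by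
  apply eq_placeInfty
  rw [SemilinearAut.smul_toValuationSubring,
    ValuationSubring.mem_pointwise_smul_iff_inv_smul_mem]
  have h1 : g⁻¹ • tF W F = tF W F := by
    conv_lhs => rw [← ht]
    exact inv_smul_smul g _
  rw [h1]
  exact tF_not_mem_placeInfty W F

theorem smul_placeAt (ht : g • tF W F = tF W F) (hy : g • yF W F = yF W F) {x y : k}
    (h : W.Equation x y)
    (h' : W.Equation (SemilinearAut.baseAut g x) (SemilinearAut.baseAut g y)) :
    g • placeAt W F h = placeAt W F h' := by
  apply eq_placeAt_of_mem_nonunits
  · have h1 := smul_mem_nonunits g (tF_sub_mem_nonunits_placeAt W F h)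
    rwa [smul_sub, ht, SemilinearAut.smul_algebraMap] at h1
  · have h1 := smul_mem_nonunits g (yF_sub_mem_nonunits_placeAt W F h)
    rwa [smul_sub, hy, SemilinearAut.smul_algebraMap] at h1

/-! ### equivariance -/

variable [DecidableEq k]

theorem smul_pointClass_some (ht : g • tF W F = tF W F) (hy : g • yF W F = yF W F) {x y : k}
    (h : W.Nonsingular x y)
    (h' : W.Nonsingular (SemilinearAut.baseAut g x) (SemilinearAut.baseAut g y)) :
    g • pointClass W F (.some x y h) = pointClass W F (.some _ _ h') := by
  rw [pointClass, SemilinearAut.pic0_smul_mk, pointClass]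
  congr 1
  apply Subtype.ext
  rw [SemilinearAut.coe_degZeroSMulHom]
  show g • pointDivisor W F (.some x y h) = pointDivisor W F (.some _ _ h')
  rw [pointDivisor_some, pointDivisor_some, smul_sub, SemilinearAut.smul_single,
    SemilinearAut.smul_single, smul_placeInfty W g ht, smul_placeAt W g ht hy h.1 h'.1]

theorem smul_pointClass_zero : g • pointClass W F (0 : W.Point) = pointClass W F 0 := by
  rw [pointClass_zero]
  exact smul_zero (A := Pic0 k F) g

theorem some_congr {x x' y y' : k} (hx : x = x') (hy : y = y') (h : W.Nonsingular x y)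
    (h' : W.Nonsingular x' y') : (Point.some x y h : W.Point) = Point.some x' y' h' := by
  subst hx hy
  rfl

/-- equivariance in coordinates: if `P = (x, y)` and `Q = (σ x, σ y)` then
`pointEquiv Q = g • pointEquiv P` -/
theorem pointEquiv_smul_some (ht : g • tF W F = tF W F) (hy : g • yF W F = yF W F) {x y : k}
    (h : W.Nonsingular x y) {x' y' : k} (hx' : SemilinearAut.baseAut g x = x')
    (hy' : SemilinearAut.baseAut g y = y') (h' : W.Nonsingular x' y') :
    pointEquiv W F (.some x' y' h') = g • pointEquiv W F (.some x y h) := by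
  subst hx' hy'
  rw [pointEquiv_apply, pointEquiv_apply, smul_pointClass_some W g ht hy h h']

end Fermat.Agent.GF.EPoints

/-! ### the frozen Galois action -/

namespace Fermat.Agent.GF.EPoints

open WeierstrassCurve WeierstrassCurve.Affine AlgebraicCurve

variable {k : Type*} [Field k] [IsAlgClosed k] [DecidableEq k]
  {R S : Type*} [CommRing R] [CommRing S] (W' : WeierstrassCurve.Affine R)
  [Algebra R S] [Algebra R k] [Algebra S k] [IsScalarTower R S k] [(W'⁄k).IsElliptic]
  {F : Type*} [Field F] [Algebra k F] [Algebra (W'⁄k).CoordinateRing F]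
  [IsScalarTower k (W'⁄k).CoordinateRing F] [IsFractionRing (W'⁄k).CoordinateRing F]

/-- **Galois equivariance of `E(k) ≃+ Pic⁰(k(E))`** for the frozen action of
`Def_FLTPrelim_GaloisRep` (`σ • P = Point.map σ P`): if the semilinear automorphism `g` of the
function field induces `σ` on constants and fixes the coordinate functions, then
`pointEquiv (σ • P) = g • pointEquiv P`. -/
theorem pointEquiv_galois_smul (σ : k ≃ₐ[S] k) (g : SemilinearAut k F)
    (hg : ∀ a : k, SemilinearAut.baseAut g a = σ a)
    (ht : g • tF (W'⁄k) F = tF (W'⁄k) F) (hy : g • yF (W'⁄k) F = yF (W'⁄k) F)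
    (P : (W'⁄k).Point) :
    pointEquiv (W'⁄k) F (σ • P) = g • pointEquiv (W'⁄k) F P := by
  rcases P with _ | ⟨x, y, h⟩
  · have h0 : (Point.zero : (W'⁄k).Point) = 0 := rfl
    rw [h0, smul_zero, map_zero]
    exact (smul_zero (A := Pic0 k F) g).symm
  · rw [Point.algEquiv_smul_def, Point.map_some]
    exact pointEquiv_smul_some (W'⁄k) g ht hy h (hg x) (hg y) _

end Fermat.Agent.GF.EPoints
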