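/-
GATE-F / GF-EPOINTS (helper85), file 8: the torsion form of `E(k) ≃+ Pic⁰(k(E))`.

* `torsionEquiv W F n : Submodule.torsionBy ℤ W.Point n ≃+ Pic0.torsion k F n`.
* frozen shape (`W = W'⁄k`, Galois action of `Def_FLTPrelim_GaloisRep`, `ZMod n`-structures of the
  Prelude): `torsionLinearEquiv W' n : E[n] ≃ₗ[ZMod n] Pic0.torsion k F n` and
  `torsionEquiv_galois_smul : torsionEquiv (σ • P) = g • torsionEquiv P`.
-/
import Mathlib
import Fermat.Agent.GF.EPoints.Equivariant

set_option autoImplicit false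
set_option linter.unusedSectionVars false

namespace Fermat.Agent.GF.EPoints

open WeierstrassCurve WeierstrassCurve.Affine AlgebraicCurve

section General

variable {k : Type*} [Field k] [IsAlgClosed k] [DecidableEq k]
  (W : WeierstrassCurve.Affine k) [W.IsElliptic]
variable (F : Type*) [Field F] [Algebra k F] [Algebra W.CoordinateRing F]
  [IsScalarTower k W.CoordinateRing F] [IsFractionRing W.CoordinateRing F]

/-- **`E[n] ≃+ Pic⁰(k(E))[n]`** -/
noncomputable def torsionEquiv (n : ℕ) :
    Submodule.torsionBy ℤ W.Point (n : ℤ) ≃+ Pic0.torsion k F n where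
  toFun P := ⟨pointEquiv W F P.1,
    (pointEquiv_mem_torsion_iff W F n P.1).mpr ((Submodule.mem_torsionBy_iff _ _).mp P.2)⟩
  invFun c := ⟨(pointEquiv W F).symm c.1, (Submodule.mem_torsionBy_iff _ _).mpr
    ((pointEquiv_mem_torsion_iff W F n ((pointEquiv W F).symm c.1)).mp (by
      rw [AddEquiv.apply_symm_apply]
      exact c.2))⟩
  left_inv P := Subtype.ext ((pointEquiv W F).symm_apply_apply P.1)
  right_inv c := Subtype.ext ((pointEquiv W F).apply_symm_apply c.1)
  map_add' P Q := Subtype.ext (map_add (pointEquiv W F) P.1 Q.1)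

@[simp] theorem coe_torsionEquiv (n : ℕ) (P : Submodule.torsionBy ℤ W.Point (n : ℤ)) :
    ((torsionEquiv W F n P : Pic0.torsion k F n) : Pic0 k F) = pointEquiv W F P.1 := rfl

end General

section Frozen

variable {k : Type*} [Field k] [IsAlgClosed k] [DecidableEq k]
  {R S : Type*} [CommRing R] [CommRing S] (W' : WeierstrassCurve.Affine R)
  [Algebra R S] [Algebra R k] [Algebra S k] [IsScalarTower R S k] [(W'⁄k).IsElliptic]
  {F : Type*} [Field F] [Algebra k F] [Algebra (W'⁄k).CoordinateRing F]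
  [IsScalarTower k (W'⁄k).CoordinateRing F] [IsFractionRing (W'⁄k).CoordinateRing F]

/-- **Galois equivariance on `n`-torsion** (frozen actions on both sides) -/
theorem torsionEquiv_galois_smul (n : ℕ) (σ : k ≃ₐ[S] k) (g : SemilinearAut k F)
    (hg : ∀ a : k, SemilinearAut.baseAut g a = σ a)
    (ht : g • tF (W'⁄k) F = tF (W'⁄k) F) (hy : g • yF (W'⁄k) F = yF (W'⁄k) F)
    (P : Submodule.torsionBy ℤ (W'⁄k).Point (n : ℤ)) :
    torsionEquiv (W'⁄k) F n (σ • P) = g • torsionEquiv (W'⁄k) F n P := by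
  apply Subtype.ext
  rw [SemilinearAut.coe_torsion_smul, coe_torsionEquiv, coe_torsionEquiv]
  exact pointEquiv_galois_smul W' σ g hg ht hy P.1

/-- the `ZMod n`-linear form (Prelude module structures on both sides) -/
noncomputable def torsionLinearEquiv (n : ℕ) :
    Submodule.torsionBy ℤ (W'⁄k).Point (n : ℤ) ≃ₗ[ZMod n] Pic0.torsion k F n :=
  (torsionEquiv (W'⁄k) F n).toLinearEquiv
    (fun c x => ZMod.map_smul (torsionEquiv (W'⁄k) F n).toAddMonoidHom c x)

@[simp] theorem torsionLinearEquiv_apply (n : ℕ)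
    (P : Submodule.torsionBy ℤ (W'⁄k).Point (n : ℤ)) :
    torsionLinearEquiv W' (F := F) n P = torsionEquiv (W'⁄k) F n P := rfl

end Frozen

end Fermat.Agent.GF.EPoints
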