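/-
GATE-F / GF-EPOINTS (helper85), file 5: the principal divisors of the group law.

`k` algebraically closed, `W` elliptic, `F` a fraction field of `W.CoordinateRing`.

* `cnt W F w I` : multiplicity of the height-one prime `w` in the ideal `I`, with
  `cnt_mul`, `cnt_span_singleton` (`= ord` at the affine place), `cnt_XYIdeal` (Kronecker delta).
* `divisor_XClass`  : `div (X - x) = (P) + (-P) - 2 (∞)` for `P = (x, y)`.
* `divisor_line`    : `div (line / (X - x₃)) = (P₁) + (P₂) - (P₁ + P₂) - (∞)`.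
Both are read off from Mathlib's ideal identities `XYIdeal_neg_mul`, `XYIdeal_mul_XYIdeal`.
-/
import Mathlib
import Fermat.Agent.GF.EPoints.Places

set_option autoImplicit false
set_option linter.unusedSectionVars false

open Polynomial
open scoped Polynomial.Bivariate nonZeroDivisors

namespace Fermat.Agent.GF.EPoints

open WeierstrassCurve WeierstrassCurve.Affine AlgebraicCurve IsDedekindDomain
open Fermat.Agent.S24 Fermat.Agent.S24_helper6

variable {k : Type*} [Field k] [IsAlgClosed k] (W : WeierstrassCurve.Affine k) [W.IsElliptic]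
variable (F : Type*) [Field F] [Algebra k F] [Algebra W.CoordinateRing F]
  [IsScalarTower k W.CoordinateRing F] [IsFractionRing W.CoordinateRing F]

/-- multiplicity of a height-one prime in an ideal of the coordinate ring -/
noncomputable def cnt (w : HeightOneSpectrum W.CoordinateRing) (I : Ideal W.CoordinateRing) : ℤ :=
  FractionalIdeal.count F w (I : FractionalIdeal W.CoordinateRing⁰ F)

theorem cnt_mul (w : HeightOneSpectrum W.CoordinateRing) {I J : Ideal W.CoordinateRing}
    (hI : I ≠ ⊥) (hJ : J ≠ ⊥) : cnt W F w (I * J) = cnt W F w I + cnt W F w J := by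
  rw [cnt, FractionalIdeal.coeIdeal_mul, FractionalIdeal.count_mul]
  · rfl
  · rwa [Ne, FractionalIdeal.coeIdeal_eq_zero]
  · rwa [Ne, FractionalIdeal.coeIdeal_eq_zero]

theorem cnt_span_singleton {x y : k} (h : W.Equation x y) {r : W.CoordinateRing} (hr : r ≠ 0) :
    cnt W F (pointPrime W h) (Ideal.span {r}) =
      (placeAt W F h).ord (algebraMap W.CoordinateRing F r) := by
  have hJ : (Ideal.span {r} : Ideal W.CoordinateRing) ≠ 0 := by
    rwa [Ne, Ideal.zero_eq_bot, Ideal.span_singleton_eq_bot]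
  rw [cnt, FractionalIdeal.count_coe F _ hJ, ord_placeAt, HeightOneSpectrum.valuation_of_algebraMap,
    HeightOneSpectrum.intValuation_if_neg _ hr, WithZero.log_exp, neg_neg]

open Classical in
theorem cnt_XYIdeal {x₀ y₀ x y : k} (h₀ : W.Equation x₀ y₀) (h : W.Equation x y) :
    cnt W F (pointPrime W h₀) (CoordinateRing.XYIdeal W x (C y)) =
      Finsupp.single (placeAt W F h) (1 : ℤ) (placeAt W F h₀) := by
  have h1 : cnt W F (pointPrime W h₀) (CoordinateRing.XYIdeal W x (C y)) =
      if pointPrime W h = pointPrime W h₀ then 1 else 0 :=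
    FractionalIdeal.count_maximal F (pointPrime W h₀) (pointPrime W h)
  rw [h1, Finsupp.single_apply]
  have hiff : pointPrime W h = pointPrime W h₀ ↔ placeAt W F h = placeAt W F h₀ := by
    rw [pointPrime_eq_iff, placeAt_eq_iff]
  by_cases hc : pointPrime W h = pointPrime W h₀
  · rw [if_pos hc, if_pos (hiff.mp hc)]
  · rw [if_neg hc, if_neg (fun h' => hc (hiff.mpr h'))]

theorem XIdeal_ne_bot (x : k) : CoordinateRing.XIdeal W x ≠ ⊥ := by
  rw [CoordinateRing.XIdeal, Ne, Ideal.span_singleton_eq_bot]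
  exact CoordinateRing.XClass_ne_zero x

theorem YIdeal_ne_bot (ℓ : k[X]) : CoordinateRing.YIdeal W ℓ ≠ ⊥ := by
  rw [CoordinateRing.YIdeal, Ne, Ideal.span_singleton_eq_bot]
  exact CoordinateRing.YClass_ne_zero ℓ

theorem single_placeAt_placeInfty {x y : k} (h : W.Equation x y) :
    Finsupp.single (placeAt W F h) (1 : ℤ) (placeInfty W F) = 0 :=
  Finsupp.single_eq_of_ne (placeAt_ne_placeInfty W F h).symm

theorem single_placeInfty_placeAt {x y : k} (h : W.Equation x y) :
    Finsupp.single (placeInfty W F) (1 : ℤ) (placeAt W F h) = 0 :=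
  Finsupp.single_eq_of_ne (placeAt_ne_placeInfty W F h)

/-- **`div (X - x) = (P) + (-P) - 2 (∞)`** -/
theorem divisor_XClass {x y : k} (h : W.Nonsingular x y) (h' : W.Equation x (W.negY x y))
    (v : Place k F) :
    ((Finsupp.single (placeAt W F h.1) (1 : ℤ) + Finsupp.single (placeAt W F h') (1 : ℤ) -
      (2 : ℤ) • Finsupp.single (placeInfty W F) (1 : ℤ) : Divisor k F)) v =
      v.ord (algebraMap W.CoordinateRing F (CoordinateRing.XClass W x)) := by
  rw [Finsupp.sub_apply, Finsupp.add_apply, Finsupp.smul_apply]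
  rcases eq_placeInfty_or_exists_placeAt W F v with rfl | ⟨x₀, y₀, h₀, rfl⟩
  · rw [single_placeAt_placeInfty, single_placeAt_placeInfty, Finsupp.single_eq_same,
      ord_placeInfty_algebraMap W F (CoordinateRing.XClass_ne_zero x), ninf_XClass]
    norm_num
  · rw [single_placeInfty_placeAt, ← cnt_XYIdeal W F h₀ h.1, ← cnt_XYIdeal W F h₀ h',
      ← cnt_span_singleton W F h₀ (CoordinateRing.XClass_ne_zero x)]
    have hmul := CoordinateRing.XYIdeal_neg_mul h
    rw [CoordinateRing.XIdeal] at hmul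
    rw [← hmul, cnt_mul W F _ (XYIdeal_ne_bot W _ _) (XYIdeal_ne_bot W _ _)]
    ring

/-- **`div (line / (X - x₃)) = (P₁) + (P₂) - (P₁ + P₂) - (∞)`** -/
theorem divisor_line [DecidableEq k] {x₁ x₂ y₁ y₂ : k} (h₁ : W.Equation x₁ y₁)
    (h₂ : W.Equation x₂ y₂) (hxy : ¬(x₁ = x₂ ∧ y₁ = W.negY x₂ y₂))
    (h₃ : W.Equation (W.addX x₁ x₂ (W.slope x₁ x₂ y₁ y₂))
      (W.addY x₁ x₂ y₁ (W.slope x₁ x₂ y₁ y₂)))
    (v : Place k F) :
    ((Finsupp.single (placeAt W F h₁) (1 : ℤ) + Finsupp.single (placeAt W F h₂) (1 : ℤ) -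
      Finsupp.single (placeAt W F h₃) (1 : ℤ) -
      Finsupp.single (placeInfty W F) (1 : ℤ) : Divisor k F)) v =
      v.ord (algebraMap W.CoordinateRing F
          (CoordinateRing.YClass W (linePolynomial x₁ y₁ (W.slope x₁ x₂ y₁ y₂))) /
        algebraMap W.CoordinateRing F
          (CoordinateRing.XClass W (W.addX x₁ x₂ (W.slope x₁ x₂ y₁ y₂)))) := by
  set ℓ := linePolynomial x₁ y₁ (W.slope x₁ x₂ y₁ y₂) with hℓ
  set x₃ := W.addX x₁ x₂ (W.slope x₁ x₂ y₁ y₂) with hx₃
  have hY0 : algebraMap W.CoordinateRing F (CoordinateRing.YClass W ℓ) ≠ 0 := by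
    rw [Ne, map_eq_zero_iff _ (algebraMap_injective' W F)]
    exact CoordinateRing.YClass_ne_zero ℓ
  have hX0 : algebraMap W.CoordinateRing F (CoordinateRing.XClass W x₃) ≠ 0 := by
    rw [Ne, map_eq_zero_iff _ (algebraMap_injective' W F)]
    exact CoordinateRing.XClass_ne_zero x₃
  have hdeg : ℓ.natDegree ≤ 1 := by
    rw [hℓ, linePolynomial]
    compute_degree
  rw [div_eq_mul_inv, v.ord_mul hY0 (inv_ne_zero hX0), v.ord_inv, Finsupp.sub_apply,
    Finsupp.sub_apply, Finsupp.add_apply]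
  rcases eq_placeInfty_or_exists_placeAt W F v with rfl | ⟨x₀, y₀, h₀, rfl⟩
  · rw [single_placeAt_placeInfty, single_placeAt_placeInfty, single_placeAt_placeInfty,
      Finsupp.single_eq_same, ord_placeInfty_algebraMap W F (CoordinateRing.YClass_ne_zero ℓ),
      ord_placeInfty_algebraMap W F (CoordinateRing.XClass_ne_zero x₃), ninf_XClass,
      ninf_YClass W hdeg]
    norm_num
  · rw [single_placeInfty_placeAt, ← cnt_XYIdeal W F h₀ h₁, ← cnt_XYIdeal W F h₀ h₂,
      ← cnt_XYIdeal W F h₀ h₃, ← cnt_span_singleton W F h₀ (CoordinateRing.XClass_ne_zero x₃),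
      ← cnt_span_singleton W F h₀ (CoordinateRing.YClass_ne_zero ℓ)]
    have hmul := CoordinateRing.XYIdeal_mul_XYIdeal h₁ h₂ hxy
    rw [CoordinateRing.XIdeal, CoordinateRing.YIdeal] at hmul
    have hc := congrArg (cnt W F (pointPrime W h₀)) hmul
    have hX : (Ideal.span {CoordinateRing.XClass W x₃} : Ideal W.CoordinateRing) ≠ ⊥ :=
      XIdeal_ne_bot W x₃
    have hYne : (Ideal.span {CoordinateRing.YClass W ℓ} : Ideal W.CoordinateRing) ≠ ⊥ :=
      YIdeal_ne_bot W ℓ
    rw [cnt_mul W F _ hX (mul_ne_zero (XYIdeal_ne_bot W _ _) (XYIdeal_ne_bot W _ _)),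
      cnt_mul W F _ (XYIdeal_ne_bot W _ _) (XYIdeal_ne_bot W _ _),
      cnt_mul W F _ hYne (XYIdeal_ne_bot W _ _)] at hc
    linarith

end Fermat.Agent.GF.EPoints
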